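import Mathlib

/-!
# The orbit lemma (module LOC of T24)

Pure algebra.  `F` is a field, `ι` is the finite set of places of `F` above a point `c` of the
`j`-line (with normalised order functions `ord v` and ramification indices `e v`), `X` is a finite
set (the cosets `Γ₀(N)\SL₂(ℤ)`), carrying for every `x : X` an "analytic order function" `V x`
(order at `τ₀` of `f̃ ∘ g_x`), `G` is the local monodromy group acting on `X`, and `m` is the
order of `j - c` at `τ₀`.  From

* (H1) every `V x` is a positive multiple of some `ord v`,
* (H2) `V x t = m`, `ord v t = e v` for a fixed `t` (`= j - c`),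
* (WA) weak approximation for the places above `c`,
* (NORM) `∑ x, V x f = m * ∑ v, ord v f`,
* (INV) `V (g • x) = V x`,
* (ROT) `m ∣ V x f * #(orbit of x)`,

we get: the places above `c` are in bijection with the `G`-orbits on `X`, and the ramification
index of a place is the size of the corresponding orbit.
-/

set_option autoImplicit false

namespace Fermat.Agent.S24_helper3

open MulAction

/-- The hypotheses of the orbit lemma, bundled. -/
structure OrbitHyp {F ι X G : Type*} [Field F] [Fintype ι] [Fintype X] [Group G] [MulAction G X]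
    (ord : ι → F → ℤ) (e : ι → ℕ) (V : X → F → ℤ) (m : ℕ) (t : F) : Prop where
  m_pos : 0 < m
  t_ne : t ≠ 0
  /-- (H1) every `V x` is a positive multiple of the order function of some place. -/
  multiple : ∀ x : X, ∃ v : ι, ∃ κ : ℕ, 0 < κ ∧ ∀ f : F, f ≠ 0 → V x f = κ * ord v f
  /-- (H2) -/
  V_t : ∀ x : X, V x t = m
  ord_t : ∀ v : ι, ord v t = e v
  /-- (WA) weak approximation -/
  weakApprox : ∀ v₀ : ι, ∃ f : F, f ≠ 0 ∧ ord v₀ f = 1 ∧ ∀ v : ι, v ≠ v₀ → ord v f = 0
  /-- (NORM) the norm formula -/
  norm : ∀ f : F, f ≠ 0 → ∑ x, V x f = m * ∑ v, ord v f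
  /-- (INV) invariance under the local monodromy -/
  inv : ∀ (g : G) (x : X) (f : F), V (g • x) f = V x f
  /-- (ROT) rotation lemma: `V x f ∈ (m / h) ℤ` where `h` is the size of the orbit of `x`. -/
  rot : ∀ (x : X) (f : F), f ≠ 0 → (m : ℤ) ∣ V x f * (Nat.card (orbit G x) : ℤ)

namespace OrbitHyp

variable {F ι X G : Type*} [Field F] [Fintype ι] [Fintype X] [Group G] [MulAction G X]
  {ord : ι → F → ℤ} {e : ι → ℕ} {V : X → F → ℤ} {m : ℕ} {t : F}

/-- Two places whose order functions are both proportional to `V x` coincide. -/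
theorem place_unique (H : OrbitHyp (G := G) ord e V m t) {x : X} {v v' : ι} {κ κ' : ℕ}
    (hκ : 0 < κ) (h : ∀ f : F, f ≠ 0 → V x f = κ * ord v f)
    (h' : ∀ f : F, f ≠ 0 → V x f = κ' * ord v' f) : v = v' := by
  by_contra hne
  obtain ⟨f, hf, h1, h0⟩ := H.weakApprox v
  have e1 := h f hf
  have e2 := h' f hf
  rw [h1] at e1
  rw [h0 v' (Ne.symm hne)] at e2
  rw [e1] at e2
  have : (κ : ℤ) = 0 := by simpa using e2
  have : κ = 0 := by exact_mod_cast this
  omega

/-- The place attached to `x`. -/
noncomputable def place (H : OrbitHyp (G := G) ord e V m t) (x : X) : ι :=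
  (H.multiple x).choose

/-- The proportionality factor attached to `x`. -/
noncomputable def factor (H : OrbitHyp (G := G) ord e V m t) (x : X) : ℕ :=
  (H.multiple x).choose_spec.choose

theorem factor_pos (H : OrbitHyp (G := G) ord e V m t) (x : X) : 0 < H.factor x :=
  (H.multiple x).choose_spec.choose_spec.1

theorem V_eq (H : OrbitHyp (G := G) ord e V m t) (x : X) (f : F) (hf : f ≠ 0) :
    V x f = H.factor x * ord (H.place x) f :=
  (H.multiple x).choose_spec.choose_spec.2 f hf

theorem factor_mul_e (H : OrbitHyp (G := G) ord e V m t) (x : X) :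
    H.factor x * e (H.place x) = m := by
  have h1 := H.V_eq x t H.t_ne
  rw [H.V_t x, H.ord_t] at h1
  exact_mod_cast h1.symm

theorem V_mul_e (H : OrbitHyp (G := G) ord e V m t) (x : X) (f : F) (hf : f ≠ 0) :
    V x f * e (H.place x) = m * ord (H.place x) f := by
  have hm : (m : ℤ) = (H.factor x : ℤ) * (e (H.place x) : ℤ) := by
    exact_mod_cast (H.factor_mul_e x).symm
  rw [H.V_eq x f hf, hm]
  ring

theorem place_smul (H : OrbitHyp (G := G) ord e V m t) (g : G) (x : X) :
    H.place (g • x) = H.place x := by
  refine H.place_unique (x := x) (H.factor_pos (g • x)) ?_ (H.V_eq x)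
  intro f hf
  rw [← H.inv g x f]
  exact H.V_eq (g • x) f hf

theorem orbit_subset_fibre (H : OrbitHyp (G := G) ord e V m t) (x y : X) (hy : y ∈ orbit G x) :
    H.place y = H.place x := by
  obtain ⟨g, rfl⟩ := hy
  exact H.place_smul g x

open Classical in
/-- Sum of the factors over the fibre of `v₀` equals `m`. -/
theorem sum_factor_fibre (H : OrbitHyp (G := G) ord e V m t) (v₀ : ι) :
    ∑ x ∈ Finset.univ.filter (fun x => H.place x = v₀), H.factor x = m := by
  obtain ⟨f, hf, h1, h0⟩ := H.weakApprox v₀
  have hn := H.norm f hf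
  have hr : ∑ v, ord v f = 1 := by
    rw [Finset.sum_eq_single v₀]
    · exact h1
    · intro v _ hv
      exact h0 v hv
    · intro h
      exact absurd (Finset.mem_univ v₀) h
  rw [hr, mul_one] at hn
  have hl : ∑ x, V x f
      = ∑ x ∈ Finset.univ.filter (fun x => H.place x = v₀), (H.factor x : ℤ) := by
    rw [Finset.sum_filter]
    refine Finset.sum_congr rfl ?_
    intro x _
    rw [H.V_eq x f hf]
    split_ifs with hx
    · rw [hx, h1, mul_one]
    · rw [h0 _ hx, mul_zero]
  rw [hl] at hn
  exact_mod_cast hn

open Classical in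
/-- The fibre of `v₀` has exactly `e v₀` elements. -/
theorem card_fibre (H : OrbitHyp (G := G) ord e V m t) (v₀ : ι) :
    (Finset.univ.filter (fun x => H.place x = v₀)).card = e v₀ := by
  have h1 := H.sum_factor_fibre v₀
  have h2 : ∑ x ∈ Finset.univ.filter (fun x => H.place x = v₀), H.factor x * e v₀
      = (Finset.univ.filter (fun x => H.place x = v₀)).card * m := by
    rw [Finset.card_eq_sum_ones, Finset.sum_mul]
    refine Finset.sum_congr rfl ?_
    intro x hx
    rw [Finset.mem_filter] at hx
    rw [one_mul, ← hx.2]
    exact H.factor_mul_e x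
  rw [← Finset.sum_mul, h1] at h2
  have hm := H.m_pos
  have : m * e v₀ = m * (Finset.univ.filter (fun x => H.place x = v₀)).card := by
    rw [h2, mul_comm]
  exact (Nat.eq_of_mul_eq_mul_left hm this).symm

theorem place_surjective (H : OrbitHyp (G := G) ord e V m t) : Function.Surjective H.place := by
  classical
  intro v₀
  have h1 := H.sum_factor_fibre v₀
  by_contra hne
  have : Finset.univ.filter (fun x => H.place x = v₀) = ∅ := by
    rw [Finset.filter_eq_empty_iff]
    intro x _ hx
    exact hne ⟨x, hx⟩
  rw [this, Finset.sum_empty] at h1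
  have := H.m_pos
  omega

theorem e_dvd_card_orbit (H : OrbitHyp (G := G) ord e V m t) (x : X) :
    e (H.place x) ∣ Nat.card (orbit G x) := by
  obtain ⟨f, hf, h1, _⟩ := H.weakApprox (H.place x)
  have hr := H.rot x f hf
  rw [H.V_eq x f hf, h1, mul_one] at hr
  have hm : (m : ℤ) = (H.factor x : ℤ) * (e (H.place x) : ℤ) := by
    exact_mod_cast (H.factor_mul_e x).symm
  rw [hm] at hr
  have hpos : (H.factor x : ℤ) ≠ 0 := by
    have := H.factor_pos x
    exact_mod_cast this.ne'
  have := (mul_dvd_mul_iff_left hpos).mp hr
  exact_mod_cast this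

open Classical in
/-- The orbit of `x` is exactly the fibre of the place of `x`, and its size is the ramification
index. -/
theorem card_orbit (H : OrbitHyp (G := G) ord e V m t) (x : X) :
    Nat.card (orbit G x) = e (H.place x) := by
  have hsub : (orbit G x).toFinset ⊆ Finset.univ.filter (fun y => H.place y = H.place x) := by
    intro y hy
    rw [Set.mem_toFinset] at hy
    rw [Finset.mem_filter]
    exact ⟨Finset.mem_univ y, H.orbit_subset_fibre x y hy⟩
  have hle := Finset.card_le_card hsub
  rw [H.card_fibre] at hle
  have hcard : Nat.card (orbit G x) = (orbit G x).toFinset.card := by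
    rw [Nat.card_eq_fintype_card, Set.toFinset_card]
  rw [← hcard] at hle
  have hpos : 0 < Nat.card (orbit G x) := by
    rw [hcard]
    exact Finset.card_pos.mpr ⟨x, by rw [Set.mem_toFinset]; exact mem_orbit_self x⟩
  exact Nat.le_antisymm hle (Nat.le_of_dvd hpos (H.e_dvd_card_orbit x))

open Classical in
theorem mem_orbit_of_place_eq (H : OrbitHyp (G := G) ord e V m t) (x y : X)
    (h : H.place y = H.place x) : y ∈ orbit G x := by
  have hsub : (orbit G x).toFinset ⊆ Finset.univ.filter (fun y => H.place y = H.place x) := by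
    intro z hz
    rw [Set.mem_toFinset] at hz
    rw [Finset.mem_filter]
    exact ⟨Finset.mem_univ z, H.orbit_subset_fibre x z hz⟩
  have hcard : (Finset.univ.filter (fun y => H.place y = H.place x)).card
      ≤ (orbit G x).toFinset.card := by
    rw [H.card_fibre, ← H.card_orbit x, Nat.card_eq_fintype_card, Set.toFinset_card]
  have heq := Finset.eq_of_subset_of_card_le hsub hcard
  have : y ∈ Finset.univ.filter (fun y => H.place y = H.place x) := by
    rw [Finset.mem_filter]
    exact ⟨Finset.mem_univ y, h⟩
  rw [← heq, Set.mem_toFinset] at this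
  exact this

theorem place_eq_iff (H : OrbitHyp (G := G) ord e V m t) (x y : X) :
    H.place x = H.place y ↔ orbitRel G X x y := by
  rw [orbitRel_apply]
  constructor
  · intro h
    exact H.mem_orbit_of_place_eq y x h
  · intro h
    exact H.orbit_subset_fibre y x h

/-- **Orbit lemma**, existential form. -/
theorem exists_place_map (H : OrbitHyp (G := G) ord e V m t) :
    ∃ φ : X → ι, Function.Surjective φ ∧ (∀ x y, φ x = φ y ↔ orbitRel G X x y) ∧
      (∀ x, Nat.card (orbit G x) = e (φ x)) ∧
      (∀ x (f : F), f ≠ 0 → V x f * e (φ x) = m * ord (φ x) f) :=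
  ⟨H.place, H.place_surjective, H.place_eq_iff, H.card_orbit, H.V_mul_e⟩

/-- The induced map from orbits to places. -/
noncomputable def orbitToPlace (H : OrbitHyp (G := G) ord e V m t) :
    orbitRel.Quotient G X → ι :=
  Quotient.lift (s := orbitRel G X) H.place (fun x y h => (H.place_eq_iff x y).mpr h)

theorem orbitToPlace_bijective (H : OrbitHyp (G := G) ord e V m t) :
    Function.Bijective H.orbitToPlace := by
  constructor
  · intro a b
    induction a using Quotient.inductionOn' with
    | _ x =>
    induction b using Quotient.inductionOn' with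
    | _ y =>
    intro h
    exact Quotient.sound' ((H.place_eq_iff x y).mp h)
  · intro v
    obtain ⟨x, hx⟩ := H.place_surjective v
    exact ⟨Quotient.mk'' x, hx⟩

/-- The bijection between monodromy orbits and places above `c`. -/
noncomputable def orbitEquivPlace (H : OrbitHyp (G := G) ord e V m t) :
    orbitRel.Quotient G X ≃ ι :=
  Equiv.ofBijective H.orbitToPlace H.orbitToPlace_bijective

/-- The number of places above `c` is the number of monodromy orbits. -/
theorem card_places (H : OrbitHyp (G := G) ord e V m t) :
    Fintype.card ι = Nat.card (orbitRel.Quotient G X) := by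
  rw [← Nat.card_eq_fintype_card]
  exact (Nat.card_congr H.orbitEquivPlace).symm

open Classical in
/-- `∑ e_v = #X` (the fundamental identity, as a consequence). -/
theorem sum_e (H : OrbitHyp (G := G) ord e V m t) : ∑ v, e v = Fintype.card X := by
  have : ∑ v, e v = ∑ v, (Finset.univ.filter (fun x => H.place x = v)).card := by
    refine Finset.sum_congr rfl ?_
    intro v _
    exact (H.card_fibre v).symm
  rw [this, ← Finset.card_univ (α := X)]
  exact (Finset.card_eq_sum_card_fiberwise (f := H.place) (s := Finset.univ) (t := Finset.univ)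
    (fun x _ => Finset.mem_univ _)).symm

/-- The Hurwitz contribution above `c`: `∑ (e_v - 1) = #X - #orbits`. -/
theorem sum_e_sub_one (H : OrbitHyp (G := G) ord e V m t) :
    ∑ v, ((e v : ℤ) - 1) = (Fintype.card X : ℤ) - (Nat.card (orbitRel.Quotient G X) : ℤ) := by
  rw [Finset.sum_sub_distrib, ← H.card_places]
  have := H.sum_e
  simp only [Finset.sum_const, Finset.card_univ, nsmul_eq_mul, mul_one]
  rw [← this]
  push_cast
  ring

end OrbitHyp

end Fermat.Agent.S24_helper3
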